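/-
GATE-S (S33) / FRAME², local layer, node [L1-BOOK] (helper92): ZERO COUNTS on one residue disc over
the one-component frame `Φ : FibreHyp R` of `GS/Frame/Local.lean`.  Port of the one-disc part of
`GH/Add/DivBook.lean` (+ `ord_red_pos_of_zero` of `GH/Add/Sections.lean`); only input: the fibre
formula (FF2) `Local.ord_red_eq_sum` for UNITS of the global unit ball.

* `disc_count`            : for a unit `f` of `B` without pole on `disc Q` (`Q` good) the zeros of `f`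
                            on the disc form a finite set `S` with `∑_{P ∈ S} ord_P f = ord_Q (red f)`;
* `ord_eq_zero_of_red_unit`, `exists_unique_zero`, `ord_red_pos_of_zero`;
* `red_one_add`           : `red (1 + z) = 1` for `z` in the radical;
* `ord_eq_zero_of_one_add`: `h - 1 ∈ rad`, no pole on the disc ⟹ no zero on the disc;
* `sum_ord_eq_zero_of_one_add` : `h - 1 ∈ rad` ⟹ the divisor of `h` has degree `0` on every good disc
                            (input of the off-disc degree count (F6));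
* `chartPt_ord_t`         : the parameter of a chart point has its only zero on the disc at the centre;
* `ord_on_chart_disc`     : the local form of (F5).
-/
import Mathlib
import Fermat.Agent.GS.Frame.Local
import Fermat.Agent.GS.Frame.Gen.DivBook

set_option autoImplicit false
set_option linter.unusedSectionVars false

noncomputable section

open AlgebraicCurve

namespace Fermat.Agent.GS.Frame.Local

open Fermat.Agent.RRh45 Fermat.Agent.GJ.J1 Fermat.Agent.S24 Fermat.Agent.GH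
open Fermat.Agent.GS.Frame (mem_iff_ord_nonneg valueAt_zero_iff)

open scoped Classical

variable {K F k Ft : Type*} [Field K] [Field F] [Algebra K F] [Field k] [Field Ft] [Algebra k Ft]
variable {R : RedData K F k Ft}
variable [FiniteResidues K F] [HasPrincipalDivisors K F]

/-! ### counting zeros on a residue disc -/

/-- **zero count on a disc** for units of the global unit ball. -/
theorem disc_count (Φ : FibreHyp R) {f : F} (hf : IsU Φ f) {Q : Place k Ft} (hQ : Q ∈ Φ.good)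
    (hpole : ∀ P ∈ disc Φ Q, 0 ≤ P.ord f) :
    ∃ S : Finset (Place K F), (∀ P ∈ S, P ∈ disc Φ Q ∧ 1 ≤ P.ord f) ∧
      (∀ P ∈ disc Φ Q, P ∉ S → P.ord f = 0) ∧
      ∑ P ∈ S, P.ord f = Q.ord (R.red ⟨f, Φ.B_le f hf.2.1⟩) := by
  obtain ⟨Dy, hDy, -⟩ := HasPrincipalDivisors.exists_divisor (K := K) f hf.1
  have hsum := ord_red_eq_sum Φ hf hDy hQ
  refine ⟨Dy.support.filter (fun P => Φ.rOf P = some Q), fun P hP => ?_, fun P hP hPS => ?_,
    hsum.symm⟩
  · rw [Finset.mem_filter, Finsupp.mem_support_iff, hDy P] at hP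
    have h0 := hpole P hP.2
    exact ⟨hP.2, by omega⟩
  · by_contra hne
    exact hPS (Finset.mem_filter.mpr ⟨Finsupp.mem_support_iff.mpr (by rw [hDy P]; exact hne), hP⟩)

/-- `ord_Q (red f) = 0` and no pole on the disc ⟹ no zero on the disc. -/
theorem ord_eq_zero_of_red_unit (Φ : FibreHyp R) {f : F} (hf : IsU Φ f) {Q : Place k Ft}
    (hQ : Q ∈ Φ.good) (hord : Q.ord (R.red ⟨f, Φ.B_le f hf.2.1⟩) = 0)
    (hpole : ∀ P ∈ disc Φ Q, 0 ≤ P.ord f) : ∀ P ∈ disc Φ Q, P.ord f = 0 := by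
  obtain ⟨S, hS1, hS2, hS3⟩ := disc_count Φ hf hQ hpole
  rw [hord] at hS3
  intro P hP
  by_cases hPS : P ∈ S
  · exfalso
    have h1 : P.ord f ≤ ∑ P' ∈ S, P'.ord f :=
      Finset.single_le_sum (f := fun P' => P'.ord f) (fun P' hP' => by have := (hS1 P' hP').2; omega)
        hPS
    have := (hS1 P hPS).2
    omega
  · exact hS2 P hP hPS

/-- `ord_Q (red f) = 1` and no pole on the disc ⟹ exactly one zero on the disc, and it is
simple. -/
theorem exists_unique_zero (Φ : FibreHyp R) {f : F} (hf : IsU Φ f) {Q : Place k Ft}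
    (hQ : Q ∈ Φ.good) (hord : Q.ord (R.red ⟨f, Φ.B_le f hf.2.1⟩) = 1)
    (hpole : ∀ P ∈ disc Φ Q, 0 ≤ P.ord f) :
    ∃ Ps ∈ disc Φ Q, Ps.ord f = 1 ∧ ∀ P ∈ disc Φ Q, P ≠ Ps → P.ord f = 0 := by
  obtain ⟨S, hS1, hS2, hS3⟩ := disc_count Φ hf hQ hpole
  rw [hord] at hS3
  have hne : S.Nonempty := by
    by_contra h
    rw [Finset.not_nonempty_iff_eq_empty] at h
    rw [h, Finset.sum_empty] at hS3
    omega
  obtain ⟨Ps, hPs⟩ := hne
  have hrest : ∑ P ∈ S.erase Ps, P.ord f + Ps.ord f = 1 := by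
    rw [Finset.sum_erase_add _ _ hPs]; exact hS3
  have hnn : 0 ≤ ∑ P ∈ S.erase Ps, P.ord f :=
    Finset.sum_nonneg fun P hP => by
      have := (hS1 P (Finset.mem_of_mem_erase hP)).2; omega
  have h1 := (hS1 Ps hPs).2
  have hPs1 : Ps.ord f = 1 := by omega
  have hrest0 : ∑ P ∈ S.erase Ps, P.ord f = 0 := by omega
  refine ⟨Ps, (hS1 Ps hPs).1, hPs1, fun P hP hne => ?_⟩
  by_cases hPS : P ∈ S
  · exfalso
    have hPe : P ∈ S.erase Ps := Finset.mem_erase.mpr ⟨hne, hPS⟩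
    have h2 : P.ord f ≤ ∑ P' ∈ S.erase Ps, P'.ord f :=
      Finset.single_le_sum (f := fun P' => P'.ord f)
        (fun P' hP' => by have := (hS1 P' (Finset.mem_of_mem_erase hP')).2; omega) hPe
    have := (hS1 P hPS).2
    omega
  · exact hS2 P hP hPS

/-- a zero on the disc of a good `Q`, and no pole on that disc, give a zero of the reduction. -/
theorem ord_red_pos_of_zero (Φ : FibreHyp R) {f : F} (hf : IsU Φ f) {Q : Place k Ft}
    (hQ : Q ∈ Φ.good) (hreg : ∀ P ∈ disc Φ Q, 0 ≤ P.ord f) {P₀ : Place K F}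
    (hP₀ : P₀ ∈ disc Φ Q) (h0 : 0 < P₀.ord f) :
    0 < Q.ord (R.red ⟨f, Φ.B_le f hf.2.1⟩) := by
  obtain ⟨Df, hDf, -⟩ := HasPrincipalDivisors.exists_divisor (K := K) f hf.1
  rw [ord_red_eq_sum Φ hf hDf hQ]
  have hmem : P₀ ∈ Df.support.filter (fun P => Φ.rOf P = some Q) := by
    rw [Finset.mem_filter, Finsupp.mem_support_iff, hDf P₀]
    exact ⟨by omega, hP₀⟩
  have hnn : ∀ P ∈ Df.support.filter (fun P => Φ.rOf P = some Q), 0 ≤ P.ord f := fun P hP =>
    hreg P (Finset.mem_filter.mp hP).2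
  exact lt_of_lt_of_le h0 (Finset.single_le_sum (f := fun P => P.ord f) hnn hmem)

/-! ### functions congruent to `1` -/

/-- `red (1 + z) = 1` for `z` in the radical. -/
theorem red_one_add (Φ : FibreHyp R) {z : F} (hz : z ∈ Φ.rad) :
    R.red ⟨1 + z, Φ.B_le _ (isU_one_add Φ hz).2.1⟩ = 1 := by
  have : (⟨1 + z, Φ.B_le _ (isU_one_add Φ hz).2.1⟩ : R.Rw)
      = 1 + ⟨z, Φ.B_le z (Φ.rad_sub_B z hz)⟩ := rfl
  rw [this, map_add, map_one, Φ.rad_red z hz, add_zero]

/-- a function congruent to `1` is a unit of the global unit ball. -/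
theorem isU_of_sub_one_mem (Φ : FibreHyp R) {h : F} (h1 : h - 1 ∈ Φ.rad) : IsU Φ h := by
  have := isU_one_add Φ h1
  rwa [add_sub_cancel] at this

theorem red_of_sub_one_mem (Φ : FibreHyp R) {h : F} (h1 : h - 1 ∈ Φ.rad) :
    R.red ⟨h, Φ.B_le _ (isU_of_sub_one_mem Φ h1).2.1⟩ = 1 := by
  have h2 := red_one_add Φ h1
  have h3 : (⟨1 + (h - 1), Φ.B_le _ (isU_one_add Φ h1).2.1⟩ : R.Rw)
      = ⟨h, Φ.B_le _ (isU_of_sub_one_mem Φ h1).2.1⟩ := Subtype.ext (add_sub_cancel 1 h)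
  rw [h3] at h2
  exact h2

/-- `h ≡ 1`, no pole on the disc of a good `Q` ⟹ no zero on the disc. -/
theorem ord_eq_zero_of_one_add (Φ : FibreHyp R) {h : F} (h1 : h - 1 ∈ Φ.rad) {Q : Place k Ft}
    (hQ : Q ∈ Φ.good) (hpole : ∀ P ∈ disc Φ Q, 0 ≤ P.ord h) : ∀ P ∈ disc Φ Q, P.ord h = 0 :=
  ord_eq_zero_of_red_unit Φ (isU_of_sub_one_mem Φ h1) hQ
    (by rw [red_of_sub_one_mem Φ h1, Place.ord_one]) hpole

/-- `h ≡ 1` ⟹ the divisor of `h` has degree `0` on the disc of every good `Q`. -/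
theorem sum_ord_eq_zero_of_one_add (Φ : FibreHyp R) {h : F} (h1 : h - 1 ∈ Φ.rad)
    {Dh : Divisor K F} (hDh : ∀ P, Dh P = P.ord h) {Q : Place k Ft} (hQ : Q ∈ Φ.good) :
    ∑ P ∈ Dh.support.filter (fun P => Φ.rOf P = some Q), P.ord h = 0 := by
  rw [← ord_red_eq_sum Φ (isU_of_sub_one_mem Φ h1) hDh hQ, red_of_sub_one_mem Φ h1,
    Place.ord_one]

/-! ### chart points -/

theorem chartPt_isU {Φ : FibreHyp R} {Q : Place k Ft} (pt : ChartPt Φ Q) : IsU Φ pt.t := by
  have := pt.hU 0 R.A.zero_mem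
  rwa [map_zero, sub_zero] at this

theorem chartPt_t_ne_zero {Φ : FibreHyp R} {Q : Place k Ft} (pt : ChartPt Φ Q) : pt.t ≠ 0 :=
  (chartPt_isU pt).1

theorem chartPt_ord_t_nonneg {Φ : FibreHyp R} {Q : Place k Ft} (pt : ChartPt Φ Q) :
    ∀ P ∈ disc Φ Q, 0 ≤ P.ord pt.t := fun P hP =>
  (mem_iff_ord_nonneg P (chartPt_t_ne_zero pt)).mp (pt.ht.2 P hP)

/-- the parameter of a chart point has exactly one zero on its disc: a simple zero at the
centre. -/
theorem chartPt_ord_t {Φ : FibreHyp R} {Q : Place k Ft} (pt : ChartPt Φ Q) :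
    ∀ P ∈ disc Φ Q, P.ord pt.t = if P = pt.P then 1 else 0 := by
  obtain ⟨Ps, hPs, hPs1, hPs0⟩ :=
    exists_unique_zero Φ (chartPt_isU pt) pt.hQ pt.hred (chartPt_ord_t_nonneg pt)
  have hcentre : pt.P = Ps := by
    by_contra hne
    have h0 := hPs0 pt.P pt.hP hne
    have h1 := ((valueAt_zero_iff pt.P pt.t).mp pt.ht0).resolve_left (chartPt_t_ne_zero pt)
    omega
  intro P hP
  by_cases hPP : P = pt.P
  · rw [if_pos hPP, hPP, hcentre]; exact hPs1
  · rw [if_neg hPP]; exact hPs0 P hP (by rw [← hcentre]; exact hPP)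

/-- **one disc with a chart point** (local form of (F5)): `h ≡ 1`, at most a simple pole at the
centre and no other pole on the disc.  Then `t h` has a unique zero `Ps` on the disc and
`div h = [Ps] - [centre]` on the disc. -/
theorem ord_on_chart_disc (Φ : FibreHyp R) {Q : Place k Ft} (pt : ChartPt Φ Q) {h : F}
    (h1 : h - 1 ∈ Φ.rad)
    (hpole : ∀ P ∈ disc Φ Q, -(if P = pt.P then 1 else 0) ≤ P.ord h) :
    ∃ Ps ∈ disc Φ Q, ValueAt Ps (pt.t * h) 0 ∧
      (∀ P' ∈ disc Φ Q, ValueAt P' (pt.t * h) 0 → P' = Ps) ∧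
      ∀ P ∈ disc Φ Q, P.ord h = (if P = Ps then 1 else 0) - (if P = pt.P then 1 else 0) := by
  have hU := isU_of_sub_one_mem Φ h1
  have hh0 : h ≠ 0 := hU.1
  have ht0 := chartPt_t_ne_zero pt
  have hfU : IsU Φ (pt.t * h) := (chartPt_isU pt).mul hU
  have hf0 : pt.t * h ≠ 0 := hfU.1
  have hfred : R.red ⟨pt.t * h, Φ.B_le _ hfU.2.1⟩ = R.red ⟨pt.t, Φ.B_le _ pt.ht.1⟩ := by
    have : (⟨pt.t * h, Φ.B_le _ hfU.2.1⟩ : R.Rw)
        = ⟨pt.t, Φ.B_le _ pt.ht.1⟩ * ⟨h, Φ.B_le _ hU.2.1⟩ := rfl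
    rw [this, map_mul, red_of_sub_one_mem Φ h1, mul_one]
  have hord : ∀ P : Place K F, P.ord (pt.t * h) = P.ord pt.t + P.ord h := fun P =>
    P.ord_mul ht0 hh0
  have hpf : ∀ P ∈ disc Φ Q, 0 ≤ P.ord (pt.t * h) := fun P hP => by
    rw [hord P, chartPt_ord_t pt P hP]
    have := hpole P hP
    omega
  obtain ⟨Ps, hPs, hPs1, hPs0⟩ :=
    exists_unique_zero Φ hfU pt.hQ (by rw [hfred]; exact pt.hred) hpf
  refine ⟨Ps, hPs, (valueAt_zero_iff Ps _).mpr (Or.inr (by omega)), fun P' hP' hv => ?_,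
    fun P hP => ?_⟩
  · by_contra hne
    have h0 := hPs0 P' hP' hne
    have h1 := ((valueAt_zero_iff P' _).mp hv).resolve_left hf0
    omega
  · have h1 := hord P
    rw [chartPt_ord_t pt P hP] at h1
    by_cases hPP : P = Ps
    · rw [if_pos hPP]
      rw [hPP] at h1 ⊢
      omega
    · rw [if_neg hPP]
      have := hPs0 P hP hPP
      omega

end Fermat.Agent.GS.Frame.Local
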