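/-
GATE-S (S33) / FRAME², node [L1-PAR] (helper99): the chart-parameter facts (F2) `param_lt_one` and
(F4) `disc_inj` over the LOCAL (one component) frame `Φ : FibreHyp R` of `GS/Frame/Local.lean`.

Port of `GH/L/ChartPt.lean` (first half) and `GH/L/Inj.lean` by the porting rule of
`GS/Frame/Local.lean`: the licence `R.red y ≠ 0` for the fibre formula becomes `IsU Φ y`
(the functions fed to it are `1 - a⁻¹ t` (`|a| > 1`: `1 +` radical) and `t - a` (`|a| ≤ 1`:
`pt.hU`)).

* `ord_le_of_no_pole`           : zero count on a residue disc for a unit of the global ball;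
* `ord_add_le_of_no_pole`       : two-point zero count;
* `valuation_lt_one_of_valueAt` : the values of a chart parameter on its disc lie in the maximal
                                  ideal of `R.A`                       — (F2);
* `eq_of_valueAt_eq`            : a chart parameter separates the points of its disc — (F4);
* `param_lt_one`, `disc_inj`    : the same two in the binder shapes of `DiscFacts` /
                                  `Glue.LocalFacts` (fields (F2), (F4)).

Namespace `Fermat.Agent.GS.Frame.Local.Par` (sub-namespace: no clash with the other L1 ports).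
-/
import Mathlib
import Fermat.Agent.GS.Frame.Local
import Fermat.Agent.GH.L.ChartPt

set_option autoImplicit false

noncomputable section

open AlgebraicCurve

namespace Fermat.Agent.GS.Frame.Local.Par

open Fermat.Agent.RRh45 Fermat.Agent.GJ.J1 Fermat.Agent.S24 Fermat.Agent.GH

open scoped Classical

variable {K F k Ft : Type*} [Field K] [Field F] [Algebra K F] [Field k] [Field Ft] [Algebra k Ft]
variable {R : RedData K F k Ft}

/-- elements of `Odisc` have no pole on the disc. -/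
theorem ord_nonneg_of_mem_Odisc (Φ : FibreHyp R) {Q : Place k Ft} {e : F}
    (he : e ∈ Odisc Φ Q) {P : Place K F} (hP : P ∈ disc Φ Q) : 0 ≤ P.ord e := by
  by_cases h0 : e = 0
  · rw [h0, Place.ord_zero]
  · exact (PlaceB.ord_nonneg_iff P h0).mpr (he.2 P hP)

/-- the reduction of an element of the radical (as an element of `R.Rw`, any membership proof). -/
theorem red_eq_zero_of_mem_rad (Φ : FibreHyp R) {z : F} (hz : z ∈ Φ.rad) (hz' : z ∈ R.Rw) :
    R.red ⟨z, hz'⟩ = 0 := Φ.rad_red z hz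

/-- the negative of an element of the radical is in the radical. -/
theorem neg_mem_rad (Φ : FibreHyp R) {z : F} (hz : z ∈ Φ.rad) : -z ∈ Φ.rad := by
  have := Φ.rad_mul (-1) (Φ.B.neg_mem Φ.B.one_mem) z hz
  rwa [neg_one_mul] at this

variable [HasPrincipalDivisors K F]

/-- a unit of the global ball without pole on the disc of the smooth point `Q` has at most
`ord_Q (red y)` zeros (with multiplicity) at each point of the disc. -/
theorem ord_le_of_no_pole (Φ : FibreHyp R) {y : F} (hy : IsU Φ y) {Q : Place k Ft}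
    (hQ : Q ∈ Φ.good) (hpole : ∀ P ∈ disc Φ Q, 0 ≤ P.ord y) {P : Place K F}
    (hP : P ∈ disc Φ Q) : P.ord y ≤ Q.ord (R.red ⟨y, Φ.B_le y hy.2.1⟩) := by
  obtain ⟨Dy, hDy, -⟩ := HasPrincipalDivisors.exists_divisor (K := K) y hy.1
  rw [ord_red_eq_sum Φ hy hDy hQ]
  have hfil : ∀ P' ∈ Dy.support.filter (fun P => Φ.rOf P = some Q), 0 ≤ P'.ord y := by
    intro P' hP'
    have h := (Finset.mem_filter.mp hP').2
    exact hpole P' h
  by_cases hmem : P ∈ Dy.support.filter (fun P => Φ.rOf P = some Q)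
  · exact Finset.single_le_sum (f := fun P : Place K F => P.ord y) hfil hmem
  · have hPs : P ∉ Dy.support := fun h =>
      hmem (Finset.mem_filter.mpr ⟨h, (show Φ.rOf P = some Q from hP)⟩)
    have h0 : P.ord y = 0 := by rw [← hDy P]; exact Finsupp.notMem_support_iff.mp hPs
    rw [h0]
    exact Finset.sum_nonneg hfil

/-- two-point zero count: two distinct zeros on a regular disc cost their total multiplicity. -/
theorem ord_add_le_of_no_pole (Φ : FibreHyp R) {y : F} (hy : IsU Φ y) {Q : Place k Ft}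
    (hQ : Q ∈ Φ.good) (hpole : ∀ P ∈ disc Φ Q, 0 ≤ P.ord y) {P P' : Place K F}
    (hP : P ∈ disc Φ Q) (hP' : P' ∈ disc Φ Q) (hne : P ≠ P') (h0 : 0 < P.ord y)
    (h0' : 0 < P'.ord y) : P.ord y + P'.ord y ≤ Q.ord (R.red ⟨y, Φ.B_le y hy.2.1⟩) := by
  obtain ⟨Dy, hDy, -⟩ := HasPrincipalDivisors.exists_divisor (K := K) y hy.1
  rw [ord_red_eq_sum Φ hy hDy hQ]
  have hmem : ∀ P₁ : Place K F, P₁ ∈ disc Φ Q → 0 < P₁.ord y →
      P₁ ∈ Dy.support.filter (fun P => Φ.rOf P = some Q) := fun P₁ hP₁ h₁ =>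
    Finset.mem_filter.mpr ⟨Finsupp.mem_support_iff.mpr (by rw [hDy P₁]; omega),
      (show Φ.rOf P₁ = some Q from hP₁)⟩
  have hsub : ({P, P'} : Finset (Place K F)) ⊆
      Dy.support.filter (fun P => Φ.rOf P = some Q) := by
    intro P₁ hP₁
    rcases Finset.mem_insert.mp hP₁ with rfl | hP₁
    · exact hmem _ hP h0
    · rw [Finset.mem_singleton.mp hP₁]; exact hmem _ hP' h0'
  have hfil : ∀ P' ∈ Dy.support.filter (fun P => Φ.rOf P = some Q), 0 ≤ P'.ord y := by
    intro P' hP'
    have h := (Finset.mem_filter.mp hP').2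
    exact hpole P' h
  have h1 := Finset.sum_le_sum_of_subset_of_nonneg (f := fun P : Place K F => P.ord y) hsub
    (fun P₁ hP₁ _ => hfil P₁ hP₁)
  rwa [Finset.sum_pair hne] at h1

/-- **(F2) values of a chart parameter lie in the maximal ideal**: if `P` is in the disc of the
chart point `pt` and `t(P) = a`, then `|a| < 1`. -/
theorem valuation_lt_one_of_valueAt (Φ : FibreHyp R) {Q : Place k Ft} (pt : ChartPt Φ Q)
    {P : Place K F} (hP : P ∈ disc Φ Q) {a : K} (ha : ValueAt P pt.t a) :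
    R.A.valuation a < 1 := by
  by_contra hnot
  rw [not_lt] at hnot
  have ha0 : a ≠ 0 := by
    rintro rfl
    rw [map_zero] at hnot
    exact absurd hnot (not_le.mpr zero_lt_one)
  have htB : pt.t ∈ Φ.B := pt.ht.1
  rcases hnot.lt_or_eq with hgt | heq
  · -- `a ∉ A`: `y = 1 - a⁻¹ t ∈ 1 + rad`
    have hainv : R.A.valuation a⁻¹ < 1 := by
      rw [map_inv₀]; exact inv_lt_one_of_one_lt₀ hgt
    have hz : -(pt.t * algebraMap K F a⁻¹) ∈ Φ.rad :=
      neg_mem_rad Φ (Φ.rad_mul _ htB _ (Φ.rad_const _ hainv))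
    have hyU : IsU Φ (1 + -(pt.t * algebraMap K F a⁻¹)) := isU_one_add Φ hz
    set y : F := 1 + -(pt.t * algebraMap K F a⁻¹) with hy
    have hredy : R.red ⟨y, Φ.B_le y hyU.2.1⟩ = 1 := by
      have h1 : (⟨y, Φ.B_le y hyU.2.1⟩ : R.Rw)
          = 1 + ⟨-(pt.t * algebraMap K F a⁻¹), Φ.B_le _ (Φ.rad_sub_B _ hz)⟩ := rfl
      rw [h1, map_add, map_one, red_eq_zero_of_mem_rad Φ hz, add_zero]
    have hpole : ∀ P' ∈ disc Φ Q, 0 ≤ P'.ord y := by
      intro P' hP'
      refine (PlaceB.ord_nonneg_iff P' hyU.1).mpr ?_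
      rw [hy]
      exact add_mem (one_mem _) (neg_mem (mul_mem (pt.ht.2 P' hP') (P'.algebraMap_mem' _)))
    have h1 := ord_le_of_no_pole Φ hyU pt.hQ hpole hP
    rw [hredy, Place.ord_one] at h1
    have h2 : P.toValuationSubring.valuation y < 1 := by
      have : y = -(algebraMap K F a⁻¹ * (pt.t - algebraMap K F a)) := by
        rw [hy, mul_sub, ← map_mul, inv_mul_cancel₀ ha0, map_one]; ring
      rw [this, Valuation.map_neg, map_mul,
        GH.L.valuation_algebraMap_eq_one P (inv_ne_zero ha0), one_mul]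
      exact ha
    have h3 := (GH.L.valuation_lt_one_iff_ord_pos P hyU.1).mp h2
    omega
  · -- `a` is a unit of `A`: `y = t - a` is a unit by `pt.hU`
    have haA : a ∈ R.A := (R.A.valuation_le_one_iff _).mp (le_of_eq heq.symm)
    have hyU : IsU Φ (pt.t - algebraMap K F a) := pt.hU a haA
    set b : R.A := ⟨a, haA⟩ with hb
    have hres : R.res b ≠ 0 := by
      intro h
      have := (R.orthoRedSystem.res_ker b).mp h
      rw [R.A.mem_nonunits_iff, ← heq] at this
      exact lt_irrefl _ this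
    have hredy : R.red ⟨pt.t - algebraMap K F a, Φ.B_le _ hyU.2.1⟩
        = R.red ⟨pt.t, Φ.B_le _ htB⟩ - algebraMap k Ft (R.res b) := by
      have h1 : (⟨pt.t - algebraMap K F a, Φ.B_le _ hyU.2.1⟩ : R.Rw)
          = ⟨pt.t, Φ.B_le _ htB⟩ - ⟨algebraMap K F (b : K), (R.mem_A_iff b).1 b.2⟩ := rfl
      rw [h1, map_sub, R.red_algebraMap]
    have hcst : algebraMap k Ft (R.res b) ≠ 0 :=
      (map_ne_zero_iff _ (algebraMap k Ft).injective).mpr hres
    obtain ⟨-, hord0⟩ := GH.L.ord_sub_eq_zero_of_pos Q (f := R.red ⟨pt.t, Φ.B_le _ htB⟩)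
      (by rw [pt.hred]; exact one_pos) hcst (PlaceB.ord_algebraMap Q hres)
    rw [← hredy] at hord0
    have hpole : ∀ P' ∈ disc Φ Q, 0 ≤ P'.ord (pt.t - algebraMap K F a) := by
      intro P' hP'
      refine (PlaceB.ord_nonneg_iff P' hyU.1).mpr ?_
      exact sub_mem (pt.ht.2 P' hP') (P'.algebraMap_mem' _)
    have h1 := ord_le_of_no_pole Φ hyU pt.hQ hpole hP
    rw [hord0] at h1
    have h3 := (GH.L.valuation_lt_one_iff_ord_pos P hyU.1).mp ha
    omega

/-- **(F4) (C)-injectivity**: a chart parameter separates the points of its disc. -/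
theorem eq_of_valueAt_eq (Φ : FibreHyp R) {Q : Place k Ft} (pt : ChartPt Φ Q) {P P' : Place K F}
    (hP : P ∈ disc Φ Q) (hP' : P' ∈ disc Φ Q) {a : K} (ha : ValueAt P pt.t a)
    (ha' : ValueAt P' pt.t a) : P = P' := by
  by_contra hne
  have hlt := valuation_lt_one_of_valueAt Φ pt hP ha
  have haA : a ∈ R.A := (R.A.valuation_le_one_iff _).mp hlt.le
  have htB : pt.t ∈ Φ.B := pt.ht.1
  have hyU : IsU Φ (pt.t - algebraMap K F a) := pt.hU a haA
  set b : R.A := ⟨a, haA⟩ with hb
  have hres : R.res b = 0 :=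
    (R.orthoRedSystem.res_ker b).mpr ((R.A.mem_nonunits_iff).mpr hlt)
  have hredy : R.red ⟨pt.t - algebraMap K F a, Φ.B_le _ hyU.2.1⟩
      = R.red ⟨pt.t, Φ.B_le _ htB⟩ := by
    have h1 : (⟨pt.t - algebraMap K F a, Φ.B_le _ hyU.2.1⟩ : R.Rw)
        = ⟨pt.t, Φ.B_le _ htB⟩ - ⟨algebraMap K F (b : K), (R.mem_A_iff b).1 b.2⟩ := rfl
    rw [h1, map_sub, R.red_algebraMap, hres, map_zero, sub_zero]
  have hpole : ∀ P₁ ∈ disc Φ Q, 0 ≤ P₁.ord (pt.t - algebraMap K F a) := by
    intro P₁ hP₁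
    refine (PlaceB.ord_nonneg_iff P₁ hyU.1).mpr ?_
    exact sub_mem (pt.ht.2 P₁ hP₁) (P₁.algebraMap_mem' _)
  have h1 := (GH.L.valuation_lt_one_iff_ord_pos P hyU.1).mp ha
  have h2 := (GH.L.valuation_lt_one_iff_ord_pos P' hyU.1).mp ha'
  have h3 := ord_add_le_of_no_pole Φ hyU pt.hQ hpole hP hP' hne h1 h2
  rw [hredy, pt.hred] at h3
  omega

/-- (F2) in the binder shape of `DiscFacts.param_lt_one`. -/
theorem param_lt_one (Φ : FibreHyp R) {Q : Place k Ft} (pt : ChartPt Φ Q) :
    ∀ P ∈ disc Φ Q, ∀ a : K, ValueAt P pt.t a → R.A.valuation a < 1 :=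
  fun _ hP _ ha => valuation_lt_one_of_valueAt Φ pt hP ha

/-- (F4) in the binder shape of `DiscFacts.disc_inj`. -/
theorem disc_inj (Φ : FibreHyp R) {Q : Place k Ft} (pt : ChartPt Φ Q) (a : K)
    (P P' : Place K F) : P ∈ disc Φ Q → P' ∈ disc Φ Q → ValueAt P pt.t a → ValueAt P' pt.t a →
    P = P' :=
  fun hP hP' ha ha' => eq_of_valueAt_eq Φ pt hP hP' ha ha'

/-- the centre of a chart point is determined by its parameter. -/
theorem chartPt_P_eq_of_t_eq (Φ : FibreHyp R) {Q : Place k Ft} (pt pt' : ChartPt Φ Q)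
    (h : pt.t = pt'.t) : pt.P = pt'.P :=
  eq_of_valueAt_eq Φ pt pt.hP pt'.hP pt.ht0 (h ▸ pt'.ht0)

end Fermat.Agent.GS.Frame.Local.Par
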