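/-
GATE-S (S33) / FRAME², local layer, node [L1-FACTS] (helper99): the facts (F1)–(F5) of ONE
component, assembled.

`localFacts Φ : Glue.LocalFacts Φ` for every `Φ : FibreHyp R` — no further hypothesis:

* (F1) `exists_value`, (F3) `taylor`   : `GS/Frame/Loc/Taylor.lean` (helper82);
* (F2) `param_lt_one`, (F4) `disc_inj` : `GS/Frame/Loc/Param.lean`  (helper99);
* (F5) `ord_on_chart_disc`             : `GS/Frame/Loc/Book.lean`   (helper92).
-/
import Mathlib
import Fermat.Agent.GS.Frame.Glue.Data
import Fermat.Agent.GS.Frame.Loc.Taylor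
import Fermat.Agent.GS.Frame.Loc.Param
import Fermat.Agent.GS.Frame.Loc.Book

set_option autoImplicit false

noncomputable section

open AlgebraicCurve

namespace Fermat.Agent.GS.Frame.Local

open Fermat.Agent.RRh45 Fermat.Agent.GJ.J1 Fermat.Agent.S24 Fermat.Agent.GH

open scoped Classical

variable {K F k Ft : Type*} [Field K] [Field F] [Algebra K F] [Field k] [Field Ft] [Algebra k Ft]
variable {R : RedData K F k Ft}
variable [FiniteResidues K F] [HasPrincipalDivisors K F]

/-- **The facts (F1)–(F5) of one component** hold for every local frame. -/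
theorem localFacts (Φ : FibreHyp R) : Glue.LocalFacts Φ where
  exists_value := fun hQ _ he _ hP => Taylor.exists_value he hQ hP
  param_lt_one := fun pt => Par.param_lt_one Φ pt
  taylor := fun pt _ he m => Taylor.taylor pt he m
  disc_inj := fun pt => Par.disc_inj Φ pt
  ord_on_chart_disc := fun pt _ h1 hpole => ord_on_chart_disc Φ pt h1 hpole

end Fermat.Agent.GS.Frame.Local
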