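/-
GATE-S (S33) / FRAME², node [L1-VAL] (helper48): port of `GH/Disc/Values.lean` (residue discs:
(Z'), (I), (C)) to the LOCAL frame `Φ : FibreHyp R` of `GS/Frame/Local.lean`.

The fibre formula is only available for UNITS of the global ball (`IsU Φ y`) at SMOOTH points
(`Q ∈ Φ.good`); every function fed to it here is a unit by the unit calculus:

* (Z') `ord_le_ord_red`  : `ord_P e ≤ ord_Q (red e)` on the disc, `e ∈ Odisc Φ Q` a unit of `B`;
* (I)  `valueAt_mem_A`   : values on the disc of `e ∈ Odisc Φ Q` lie in `R.A`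
                           (`1 - a⁻¹ e ∈ 1 + rad` is a unit); `exists_value` = (F1) of `DiscFacts`;
* (C)  `param_ord_sub`, `param_existsUnique` : for a parameter `t` and `a ∈ 𝔪_A` with `t - a` a unit
                           of `B`, `t - a` has exactly one zero on the disc, and it is simple;
* `valuation_lt_one_of_isU` : values on the disc of a parameter `t` all of whose translates
                           `t - a` (`a ∈ A`) are units lie in `𝔪_A`;
* `chartPt_of_param`, `chartPtOfParam`, and the `ChartPt` forms `chartPt_existsUnique`,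
  `chartPt_valuation_lt_one`, `chartPt_exists_valueAt`, `chartPt_ord_t_eq_one`,
  `chartPt_ord_t_eq_zero` (`chartPt_isU`, `chartPt_t_ne_zero` are in `Loc/Book.lean`).

(V) `valueAt_red` and (U) `inv_mem_Odisc` are NOT ported (`e - a` is not a unit of `B` in general;
not needed by the consumers — helper92 5142).
-/
import Mathlib
import Fermat.Agent.GS.Frame.Local
import Fermat.Agent.GH.Disc.Values

set_option autoImplicit false

noncomputable section

open AlgebraicCurve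

namespace Fermat.Agent.GS.Frame.Local

open Fermat.Agent.RRh45 Fermat.Agent.GJ.J1 Fermat.Agent.S24 Fermat.Agent.GH
open Fermat.Agent.GH.Disc (valueAt_iff_ord valueAt_iff_mem valueAt_mem valueAt_const valueAt_add
  valueAt_neg valueAt_sub valueAt_mul valueAt_pow valueAt_unique valueAt_zero_iff exists_valueAt)

variable {K F k Ft : Type*} [Field K] [Field F] [Algebra K F] [Field k] [Field Ft] [Algebra k Ft]
variable {R : RedData K F k Ft}

/-! ### `Odisc` is a subring -/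

section OdiscRing

variable (Φ : FibreHyp R) (Q : Place k Ft)

theorem odisc_const (a : R.A) : algebraMap K F (a : K) ∈ Local.Odisc Φ Q :=
  ⟨Φ.const_mem_B a a.2, fun P _ => P.algebraMap_mem' _⟩

theorem odisc_zero : (0 : F) ∈ Local.Odisc Φ Q := ⟨Φ.B.zero_mem, fun _ _ => zero_mem _⟩

theorem odisc_one : (1 : F) ∈ Local.Odisc Φ Q := ⟨Φ.B.one_mem, fun _ _ => one_mem _⟩

variable {Φ Q}

theorem odisc_add {e f : F} (he : e ∈ Local.Odisc Φ Q) (hf : f ∈ Local.Odisc Φ Q) :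
    e + f ∈ Local.Odisc Φ Q :=
  ⟨Φ.B.add_mem he.1 hf.1, fun P hP => add_mem (he.2 P hP) (hf.2 P hP)⟩

theorem odisc_sub {e f : F} (he : e ∈ Local.Odisc Φ Q) (hf : f ∈ Local.Odisc Φ Q) :
    e - f ∈ Local.Odisc Φ Q :=
  ⟨Φ.B.sub_mem he.1 hf.1, fun P hP => sub_mem (he.2 P hP) (hf.2 P hP)⟩

theorem odisc_neg {e : F} (he : e ∈ Local.Odisc Φ Q) : -e ∈ Local.Odisc Φ Q :=
  ⟨Φ.B.neg_mem he.1, fun P hP => neg_mem (he.2 P hP)⟩

theorem odisc_mul {e f : F} (he : e ∈ Local.Odisc Φ Q) (hf : f ∈ Local.Odisc Φ Q) :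
    e * f ∈ Local.Odisc Φ Q :=
  ⟨Φ.B.mul_mem he.1 hf.1, fun P hP => mul_mem (he.2 P hP) (hf.2 P hP)⟩

theorem odisc_pow {e : F} (he : e ∈ Local.Odisc Φ Q) (n : ℕ) : e ^ n ∈ Local.Odisc Φ Q :=
  ⟨Φ.B.pow_mem he.1 n, fun P hP => pow_mem (he.2 P hP) n⟩

end OdiscRing

/-! ### reductions of elements of the radical -/

section Rad

variable (Φ : FibreHyp R)

/-- the reduction of `y + z`, `z` in the radical, is the reduction of `y`. -/
theorem red_add_rad {y z : F} (hy : y ∈ Φ.B) (hz : z ∈ Φ.rad) :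
    R.red ⟨y + z, Φ.B_le _ (Φ.B.add_mem hy (Φ.rad_sub_B z hz))⟩ = R.red ⟨y, Φ.B_le y hy⟩ := by
  have e : (⟨y + z, Φ.B_le _ (Φ.B.add_mem hy (Φ.rad_sub_B z hz))⟩ : R.Rw)
      = ⟨y, Φ.B_le y hy⟩ + ⟨z, Φ.B_le z (Φ.rad_sub_B z hz)⟩ := rfl
  rw [e, map_add, Φ.rad_red z hz, add_zero]

theorem neg_mem_rad {z : F} (hz : z ∈ Φ.rad) : -z ∈ Φ.rad := by
  have := Φ.rad_mul (-1) (Φ.B.neg_mem Φ.B.one_mem) z hz
  rwa [neg_one_mul] at this

/-- the reduction of `y - z`, `z` in the radical, is the reduction of `y`. -/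
theorem red_sub_rad {y z : F} (hy : y ∈ Φ.B) (hz : z ∈ Φ.rad) :
    R.red ⟨y - z, Φ.B_le _ (Φ.B.sub_mem hy (Φ.rad_sub_B z hz))⟩ = R.red ⟨y, Φ.B_le y hy⟩ := by
  have e : (⟨y - z, Φ.B_le _ (Φ.B.sub_mem hy (Φ.rad_sub_B z hz))⟩ : R.Rw)
      = ⟨y, Φ.B_le y hy⟩ - ⟨z, Φ.B_le z (Φ.rad_sub_B z hz)⟩ := rfl
  rw [e, map_sub, Φ.rad_red z hz, sub_zero]

/-- a constant of `B` lies in `A`. -/
theorem mem_A_of_const_mem_B {a : K} (h : algebraMap K F a ∈ Φ.B) : a ∈ R.A :=
  (R.mem_A_iff a).2 (Φ.B_le _ h)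

/-- the inverse of a constant outside `A` lies in the maximal ideal of `A`. -/
theorem valuation_inv_lt_one_of_not_mem {a : K} (ha : a ∉ R.A) : R.A.valuation a⁻¹ < 1 := by
  have h1 : ¬ R.A.valuation a ≤ 1 := fun h => ha ((R.A.valuation_le_one_iff a).mp h)
  have h2 : 1 < R.A.valuation a := not_le.mp h1
  rw [map_inv₀]
  exact inv_lt_one_of_one_lt₀ h2

end Rad

/-! ### (Z'), (I) -/

section ZI

variable [HasPrincipalDivisors K F]
variable {Φ : FibreHyp R} {Q : Place k Ft}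

/-- **(Z')** on the disc of a smooth `Q`: `ord_P e ≤ ord_Q (red e)` for a unit `e ∈ Odisc Φ Q`. -/
theorem ord_le_ord_red {e : F} (he : e ∈ Local.Odisc Φ Q) (hU : IsU Φ e) (hQ : Q ∈ Φ.good)
    {P : Place K F} (hP : P ∈ Local.disc Φ Q) :
    P.ord e ≤ Q.ord (R.red ⟨e, Φ.B_le e he.1⟩) := by
  classical
  have hy0 : e ≠ 0 := hU.1
  obtain ⟨Dy, hDy, -⟩ := HasPrincipalDivisors.exists_divisor (K := K) e hy0
  have hsum := Local.ord_red_eq_sum Φ hU hDy hQ
  have hsum' : Q.ord (R.red ⟨e, Φ.B_le e he.1⟩)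
      = ∑ P ∈ Dy.support.filter (fun P => Φ.rOf P = some Q), P.ord e := hsum
  rw [hsum']
  have hnn : ∀ P' ∈ Dy.support.filter (fun P => Φ.rOf P = some Q), 0 ≤ P'.ord e := fun P' hP' =>
    (PlaceB.ord_nonneg_iff P' hy0).mpr (he.2 P' (Finset.mem_filter.mp hP').2)
  by_cases hmem : P ∈ Dy.support
  · exact Finset.single_le_sum hnn (Finset.mem_filter.mpr ⟨hmem, hP⟩)
  · have h0 : P.ord e = 0 := by rw [← hDy P]; exact Finsupp.notMem_support_iff.mp hmem
    rw [h0]; exact Finset.sum_nonneg hnn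

/-- **(I) max modulus**: values on the disc of a function of `Odisc Φ Q` lie in `R.A`. -/
theorem valueAt_mem_A {e : F} (he : e ∈ Local.Odisc Φ Q) (hQ : Q ∈ Φ.good) {P : Place K F}
    (hP : P ∈ Local.disc Φ Q) {a : K} (ha : ValueAt P e a) : a ∈ R.A := by
  by_contra hA
  have ha0 : a ≠ 0 := fun h => hA (by rw [h]; exact R.A.zero_mem)
  have hx0 : algebraMap K F a ≠ 0 := by simpa using ha0
  have hinv : R.A.valuation a⁻¹ < 1 := valuation_inv_lt_one_of_not_mem hA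
  -- `z := -(e * a⁻¹)` lies in the radical, `y' := 1 + z` is a unit with reduction `1`
  have hz0 : e * algebraMap K F a⁻¹ ∈ Φ.rad := Φ.rad_mul e he.1 _ (Φ.rad_const _ hinv)
  have hz : -(e * algebraMap K F a⁻¹) ∈ Φ.rad := neg_mem_rad Φ hz0
  set y' : F := 1 + -(e * algebraMap K F a⁻¹) with hy'
  have hU : IsU Φ y' := isU_one_add Φ hz
  have hred : R.red ⟨y', Φ.B_le y' hU.2.1⟩ = 1 := by
    have h := red_add_rad Φ Φ.B.one_mem hz
    rw [show R.red ⟨y', Φ.B_le y' hU.2.1⟩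
        = R.red ⟨1 + -(e * algebraMap K F a⁻¹), Φ.B_le _ (Φ.B.add_mem Φ.B.one_mem
          (Φ.rad_sub_B _ hz))⟩ from rfl, h]
    exact map_one R.red
  have hcoe : y' = -(algebraMap K F a)⁻¹ * (e - algebraMap K F a) := by
    rw [hy', map_inv₀]; field_simp; ring
  have hmem' : y' ∈ Local.Odisc Φ Q := by
    refine ⟨hU.2.1, fun P' hP' => ?_⟩
    rw [hy']
    exact add_mem (one_mem _) (neg_mem (mul_mem (he.2 P' hP') (P'.algebraMap_mem' _)))
  have hle := ord_le_ord_red hmem' hU hQ hP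
  rw [show R.red ⟨y', Φ.B_le y' hmem'.1⟩ = R.red ⟨y', Φ.B_le y' hU.2.1⟩ from rfl, hred,
    Place.ord_one] at hle
  rw [valueAt_iff_ord] at ha
  rcases ha with h | h
  · apply hA
    apply mem_A_of_const_mem_B Φ
    rw [← sub_eq_zero.mp h]; exact he.1
  · have hne : e - algebraMap K F a ≠ 0 := by
      intro h0; rw [h0, Place.ord_zero] at h; exact lt_irrefl _ h
    have hinv' : -(algebraMap K F a)⁻¹ ≠ 0 := neg_ne_zero.mpr (inv_ne_zero hx0)
    rw [hcoe, P.ord_mul hinv' hne, PlaceB.ord_neg, Place.ord_inv, PlaceB.ord_algebraMap P ha0]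
      at hle
    omega

/-- **(F1)**: a function of `Odisc Φ Q` has a value in `R.A` at every point of the disc. -/
theorem exists_value {e : F} (he : e ∈ Local.Odisc Φ Q) (hQ : Q ∈ Φ.good) {P : Place K F}
    (hP : P ∈ Local.disc Φ Q) : ∃ a ∈ R.A, ValueAt P e a := by
  obtain ⟨a, ha⟩ := exists_valueAt (Φ.degF P) (he.2 P hP)
  exact ⟨a, valueAt_mem_A he hQ hP ha, ha⟩

end ZI

/-! ### (C) parameters -/

section Param

variable [HasPrincipalDivisors K F]
variable {Φ : FibreHyp R} {Q : Place k Ft}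

omit [HasPrincipalDivisors K F] in
/-- the reduction of `t - a` for `a` in the maximal ideal of `R.A`. -/
theorem red_sub_const_small {t : F} (ht : t ∈ Φ.B) {a : K} (ha : R.A.valuation a < 1) :
    R.red ⟨t - algebraMap K F a, Φ.B_le _ (Φ.B.sub_mem ht (Φ.rad_sub_B _ (Φ.rad_const a ha)))⟩
      = R.red ⟨t, Φ.B_le t ht⟩ :=
  red_sub_rad Φ ht (Φ.rad_const a ha)

/-- **(C)** for a parameter `t` (in `Odisc Φ Q`, reduction a uniformiser at the smooth `Q`) and `a`
in the maximal ideal of `R.A` with `t - a` a unit of `B`: there is a point `P` of the disc where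
`t - a` has a SIMPLE zero, and `t - a` has no other zero on the disc. -/
theorem param_ord_sub {t : F} (ht : t ∈ Local.Odisc Φ Q) (hQ : Q ∈ Φ.good)
    (hred : Q.ord (R.red ⟨t, Φ.B_le t ht.1⟩) = 1) {a : K} (ha : R.A.valuation a < 1)
    (hU : IsU Φ (t - algebraMap K F a)) :
    ∃ P : Place K F, P ∈ Local.disc Φ Q ∧ P.ord (t - algebraMap K F a) = 1 ∧
      ∀ P' : Place K F, P' ∈ Local.disc Φ Q → P' ≠ P → P'.ord (t - algebraMap K F a) = 0 := by
  classical
  have haA : a ∈ R.A := (R.A.valuation_le_one_iff a).mp ha.le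
  set z : F := t - algebraMap K F a with hz
  have hz0 : z ≠ 0 := hU.1
  have hzmem : z ∈ Local.Odisc Φ Q := odisc_sub ht (odisc_const Φ Q ⟨a, haA⟩)
  have hzred : R.red ⟨z, Φ.B_le z hU.2.1⟩ = R.red ⟨t, Φ.B_le t ht.1⟩ :=
    red_sub_const_small ht.1 ha
  obtain ⟨Dz, hDz, -⟩ := HasPrincipalDivisors.exists_divisor (K := K) z hz0
  have hsum : Q.ord (R.red ⟨z, Φ.B_le z hU.2.1⟩)
      = ∑ P ∈ Dz.support.filter (fun P => Φ.rOf P = some Q), P.ord z :=
    Local.ord_red_eq_sum Φ hU hDz hQ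
  rw [hzred, hred] at hsum
  set S := Dz.support.filter (fun P => Φ.rOf P = some Q) with hS
  have hnn : ∀ P' ∈ S, 0 ≤ P'.ord z := fun P' hP' =>
    (PlaceB.ord_nonneg_iff P' hz0).mpr (hzmem.2 P' (Finset.mem_filter.mp hP').2)
  have hpos : ∀ P' ∈ S, 1 ≤ P'.ord z := fun P' hP' => by
    have h1 := hnn P' hP'
    have h2 : P'.ord z ≠ 0 := by
      rw [← hDz P']; exact Finsupp.mem_support_iff.mp (Finset.mem_filter.mp hP').1
    omega
  have hne : S.Nonempty := by
    by_contra hemp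
    rw [Finset.not_nonempty_iff_eq_empty] at hemp
    rw [hemp, Finset.sum_empty] at hsum
    omega
  obtain ⟨P₀, hP₀⟩ := hne
  have huniq : ∀ P' ∈ S, P' = P₀ := by
    intro P' hP'
    by_contra hne'
    have hsub : ({P₀, P'} : Finset (Place K F)) ⊆ S := by
      intro x hx
      rcases Finset.mem_insert.mp hx with rfl | hx
      · exact hP₀
      · rw [Finset.mem_singleton.mp hx]; exact hP'
    have h1 := Finset.sum_le_sum_of_subset_of_nonneg (f := fun P => P.ord z) hsub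
      (fun x hx _ => hnn x hx)
    rw [Finset.sum_pair (Ne.symm hne')] at h1
    have h2 := hpos P₀ hP₀
    have h3 := hpos P' hP'
    omega
  have hord1 : P₀.ord z = 1 := by
    have : ∑ P ∈ S, P.ord z = P₀.ord z := by
      apply Finset.sum_eq_single_of_mem P₀ hP₀
      intro b hb hbne
      exact absurd (huniq b hb) hbne
    rw [← this]; exact hsum.symm
  refine ⟨P₀, (Finset.mem_filter.mp hP₀).2, hord1, ?_⟩
  intro P' hP' hne'
  by_contra h0
  have hmem : P' ∈ S := Finset.mem_filter.mpr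
    ⟨Finsupp.mem_support_iff.mpr (by rw [hDz P']; exact h0), hP'⟩
  exact hne' (huniq P' hmem)

/-- **(C)** every `a` in the maximal ideal of `R.A` (with `t - a` a unit of `B`) is the value of
the parameter `t` at exactly one point of the disc. -/
theorem param_existsUnique {t : F} (ht : t ∈ Local.Odisc Φ Q) (hQ : Q ∈ Φ.good)
    (hred : Q.ord (R.red ⟨t, Φ.B_le t ht.1⟩) = 1) {a : K} (ha : R.A.valuation a < 1)
    (hU : IsU Φ (t - algebraMap K F a)) :
    ∃! P : Place K F, P ∈ Local.disc Φ Q ∧ ValueAt P t a := by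
  obtain ⟨P, hP, h1, h0⟩ := param_ord_sub ht hQ hred ha hU
  refine ⟨P, ⟨hP, (valueAt_iff_ord P t a).mpr (Or.inr (by rw [h1]; exact one_pos))⟩, ?_⟩
  rintro P' ⟨hP', hv⟩
  by_contra hne
  have h2 := h0 P' hP' hne
  rw [valueAt_iff_ord] at hv
  rcases hv with h | h
  · rw [h, Place.ord_zero] at h1; omega
  · omega

/-- values on the disc of a function `t ∈ Odisc Φ Q` whose reduction vanishes at the smooth `Q`
and all of whose translates `t - a`, `a ∈ R.A`, are units of `B` lie in the maximal ideal of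
`R.A`. -/
theorem valuation_lt_one_of_isU {t : F} (ht : t ∈ Local.Odisc Φ Q) (hQ : Q ∈ Φ.good)
    (hred : 0 < Q.ord (R.red ⟨t, Φ.B_le t ht.1⟩))
    (hU : ∀ a ∈ R.A, IsU Φ (t - algebraMap K F a)) {P : Place K F} (hP : P ∈ Local.disc Φ Q)
    {a : K} (ha : ValueAt P t a) : R.A.valuation a < 1 := by
  have haA : a ∈ R.A := valueAt_mem_A ht hQ hP ha
  by_contra hnot
  have hle : R.A.valuation a ≤ 1 := (R.A.valuation_le_one_iff a).mpr haA
  have hone : R.A.valuation a = 1 := le_antisymm hle (not_lt.mp hnot)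
  have hresne : R.res ⟨a, haA⟩ ≠ 0 := by
    intro h0
    exact hnot ((Fermat.Agent.GH.Disc.res_eq_zero_iff (R := R) ⟨a, haA⟩).mp h0)
  set z : F := t - algebraMap K F a with hz
  have hUz : IsU Φ z := hU a haA
  have hzmem : z ∈ Local.Odisc Φ Q := odisc_sub ht (odisc_const Φ Q ⟨a, haA⟩)
  have hzred : R.red ⟨z, Φ.B_le z hzmem.1⟩
      = R.red ⟨t, Φ.B_le t ht.1⟩ - algebraMap k Ft (R.res ⟨a, haA⟩) := by
    have e : (⟨z, Φ.B_le z hzmem.1⟩ : R.Rw)
        = ⟨t, Φ.B_le t ht.1⟩ - ⟨algebraMap K F a, (R.mem_A_iff a).1 haA⟩ := rfl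
    rw [e, map_sub, R.red_algebraMap ⟨a, haA⟩]
  have hle' := ord_le_ord_red hzmem hUz hQ hP
  -- the order of `red t - res a` at `Q` is `0`
  have hc0 : algebraMap k Ft (R.res ⟨a, haA⟩) ≠ 0 := by simpa using hresne
  have hordc : Q.ord (algebraMap k Ft (R.res ⟨a, haA⟩)) = 0 := PlaceB.ord_algebraMap Q hresne
  have hval : ValueAt Q (R.red ⟨t, Φ.B_le t ht.1⟩) 0 := (valueAt_zero_iff Q _).mpr (Or.inr hred)
  have hval2 : ValueAt Q (R.red ⟨t, Φ.B_le t ht.1⟩ - algebraMap k Ft (R.res ⟨a, haA⟩))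
      (0 - R.res ⟨a, haA⟩) := valueAt_sub hval (valueAt_const Q _)
  have hord0 : Q.ord (R.red ⟨z, Φ.B_le z hzmem.1⟩) ≤ 0 := by
    rw [hzred]
    by_contra hpos
    have hpos' : 0 < Q.ord (R.red ⟨t, Φ.B_le t ht.1⟩ - algebraMap k Ft (R.res ⟨a, haA⟩)) :=
      not_le.mp hpos
    have hval3 : ValueAt Q (R.red ⟨t, Φ.B_le t ht.1⟩ - algebraMap k Ft (R.res ⟨a, haA⟩)) 0 :=
      (valueAt_zero_iff Q _).mpr (Or.inr hpos')
    have := valueAt_unique hval2 hval3
    rw [zero_sub, neg_eq_zero] at this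
    exact hresne this
  rw [valueAt_iff_ord] at ha
  rcases ha with h | h
  · exact hUz.1 h
  · rw [← hz] at h
    omega

/-- **`chartPt_of_param`**: a parameter `t₀ ∈ Odisc Φ Q`, a unit of `B`, whose reduction is a
uniformiser at the smooth `Q`, has exactly one zero on the disc of `Q`. -/
theorem chartPt_of_param {t₀ : F} (ht : t₀ ∈ Local.Odisc Φ Q) (hQ : Q ∈ Φ.good)
    (hred : Q.ord (R.red ⟨t₀, Φ.B_le t₀ ht.1⟩) = 1) (hU : IsU Φ t₀) :
    ∃! P : Place K F, P ∈ Local.disc Φ Q ∧ ValueAt P t₀ 0 :=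
  param_existsUnique ht hQ hred (a := 0) (by rw [map_zero]; exact zero_lt_one)
    (by rw [map_zero, sub_zero]; exact hU)

omit [HasPrincipalDivisors K F] in
/-- the translate by `0`. -/
theorem isU_of_forall {t : F} (hU : ∀ a ∈ R.A, IsU Φ (t - algebraMap K F a)) : IsU Φ t := by
  have h := hU 0 R.A.zero_mem
  rwa [map_zero, sub_zero] at h

/-- the chart point with parameter `t₀`, centred at the unique zero of `t₀` on the disc. -/
def chartPtOfParam {t₀ : F} (ht : t₀ ∈ Local.Odisc Φ Q) (hQ : Q ∈ Φ.good)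
    (hred : Q.ord (R.red ⟨t₀, Φ.B_le t₀ ht.1⟩) = 1)
    (hU : ∀ a ∈ R.A, IsU Φ (t₀ - algebraMap K F a)) : Local.ChartPt Φ Q where
  hQ := hQ
  P := (chartPt_of_param ht hQ hred (isU_of_forall hU)).choose
  hP := (chartPt_of_param ht hQ hred (isU_of_forall hU)).choose_spec.1.1
  t := t₀
  ht := ht
  ht0 := (chartPt_of_param ht hQ hred (isU_of_forall hU)).choose_spec.1.2
  hred := hred
  hU := hU

@[simp] theorem chartPtOfParam_t {t₀ : F} (ht : t₀ ∈ Local.Odisc Φ Q) (hQ : Q ∈ Φ.good)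
    (hred : Q.ord (R.red ⟨t₀, Φ.B_le t₀ ht.1⟩) = 1)
    (hU : ∀ a ∈ R.A, IsU Φ (t₀ - algebraMap K F a)) : (chartPtOfParam ht hQ hred hU).t = t₀ := rfl

/-! #### the `ChartPt` forms -/

variable (𝔭 : Local.ChartPt Φ Q)

omit [HasPrincipalDivisors K F] in
private theorem chartPt_isU_val : IsU Φ 𝔭.t := isU_of_forall 𝔭.hU

/-- every `a ∈ 𝔪_A` is the value of the parameter at exactly one point of the disc. -/
theorem chartPt_existsUnique {a : K} (ha : R.A.valuation a < 1) :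
    ∃! P : Place K F, P ∈ Local.disc Φ Q ∧ ValueAt P 𝔭.t a :=
  param_existsUnique 𝔭.ht 𝔭.hQ 𝔭.hred ha
    (𝔭.hU a ((R.A.valuation_le_one_iff a).mp ha.le))

/-- values of the parameter on the disc lie in the maximal ideal of `R.A`. -/
theorem chartPt_valuation_lt_one {P : Place K F} (hP : P ∈ Local.disc Φ Q) {a : K}
    (ha : ValueAt P 𝔭.t a) : R.A.valuation a < 1 :=
  valuation_lt_one_of_isU 𝔭.ht 𝔭.hQ (by rw [𝔭.hred]; exact one_pos) 𝔭.hU hP ha

omit [HasPrincipalDivisors K F] in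
/-- the parameter has a value at every point of the disc. -/
theorem chartPt_exists_valueAt {P : Place K F} (hP : P ∈ Local.disc Φ Q) :
    ∃ a : K, ValueAt P 𝔭.t a :=
  exists_valueAt (Φ.degF P) (𝔭.ht.2 P hP)

/-- the parameter has a simple zero at the centre. -/
theorem chartPt_ord_t_eq_one : 𝔭.P.ord 𝔭.t = 1 := by
  obtain ⟨P, hP, h1, h0⟩ := param_ord_sub 𝔭.ht 𝔭.hQ 𝔭.hred (a := 0)
    (by rw [map_zero]; exact zero_lt_one) (by rw [map_zero, sub_zero]; exact chartPt_isU_val 𝔭)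
  rw [map_zero, sub_zero] at h1 h0
  by_cases hPP : 𝔭.P = P
  · rw [hPP]; exact h1
  · exfalso
    have h2 := h0 𝔭.P 𝔭.hP hPP
    have h3 := (valueAt_zero_iff 𝔭.P 𝔭.t).mp 𝔭.ht0
    rcases h3 with h | h
    · rw [h, Place.ord_zero] at h1; omega
    · omega

/-- the parameter has no zero on the disc besides the centre. -/
theorem chartPt_ord_t_eq_zero {P : Place K F} (hP : P ∈ Local.disc Φ Q) (hne : P ≠ 𝔭.P) :
    P.ord 𝔭.t = 0 := by
  obtain ⟨P₀, hP₀, h1, h0⟩ := param_ord_sub 𝔭.ht 𝔭.hQ 𝔭.hred (a := 0)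
    (by rw [map_zero]; exact zero_lt_one) (by rw [map_zero, sub_zero]; exact chartPt_isU_val 𝔭)
  rw [map_zero, sub_zero] at h1 h0
  have hc : 𝔭.P = P₀ := by
    by_contra hPP
    have h2 := h0 𝔭.P 𝔭.hP hPP
    have h3 := chartPt_ord_t_eq_one 𝔭
    omega
  exact h0 P hP (by rw [← hc]; exact hne)

end Param

end Fermat.Agent.GS.Frame.Local
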