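/-
GATE-S (S33) / FRAME², node [L1-TAY] (helper82): port of `GH/Disc/Taylor.lean` to the LOCAL frame
`Φ : FibreHyp R` of `GS/Frame/Local.lean` (one component of the special fibre, global unit ball
`Φ.B`, radical `Φ.rad`, partial place reduction `Φ.rOf`, fibre formula **(FF2)** for UNITS of `B`
at good points).

Every use of the fibre formula below is for a unit of `B`:
* (I) `1 - a⁻¹ e` with `|a| > 1` (`1 +` radical),
* the chart parameter `t` itself (`pt.hU 0`).

* `sum_ord_le_ord_red` (Z) : `y ∈ Odisc Φ Q` a unit of `B`, `Q` good, `S` a finite set of places of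
  the disc: `∑_{P ∈ S} ord_P y ≤ ord_Q (red y)`;
* `valueAt_mem_A` (I) : values of `e ∈ Odisc Φ Q` on the disc of a good `Q` lie in `R.A`;
* `ord_chart` : the parameter has a simple zero at the centre and no other zero on the disc;
* `div_mem_Odisc` (D0) : division by the parameter;
* `taylor_eq`, `exists_taylor` (D) : `e = ∑_{i<n} c_i t^i + t^n e_n`, `c_i ∈ R.A`, `e_n ∈ Odisc Φ Q`;
* `taylor_bound` (D') and **`taylor`** = the field (F3) of `GS/Frame/Vocab.DiscFacts`, local form.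
-/
import Mathlib
import Fermat.Agent.GS.Frame.Local
import Fermat.Agent.GH.Disc.Taylor

set_option autoImplicit false

noncomputable section

open AlgebraicCurve

namespace Fermat.Agent.GS.Frame.Local.Taylor

open Fermat.Agent.RRh45 Fermat.Agent.GJ.J1 Fermat.Agent.S24 Fermat.Agent.GH
  Fermat.Agent.GH.Taylor Fermat.Agent.GS.Frame.Local

variable {K F k Ft : Type*} [Field K] [Field F] [Algebra K F] [Field k] [Field Ft] [Algebra k Ft]
variable {R : RedData K F k Ft}
variable {Φ : FibreHyp R} {Q : Place k Ft}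

/-! ### the ring `Odisc Φ Q` -/

theorem add_mem_Odisc {e e' : F} (he : e ∈ Odisc Φ Q) (he' : e' ∈ Odisc Φ Q) :
    e + e' ∈ Odisc Φ Q :=
  ⟨Φ.B.add_mem he.1 he'.1, fun P hP => add_mem (he.2 P hP) (he'.2 P hP)⟩

theorem sub_mem_Odisc {e e' : F} (he : e ∈ Odisc Φ Q) (he' : e' ∈ Odisc Φ Q) :
    e - e' ∈ Odisc Φ Q :=
  ⟨Φ.B.sub_mem he.1 he'.1, fun P hP => sub_mem (he.2 P hP) (he'.2 P hP)⟩

theorem mul_mem_Odisc {e e' : F} (he : e ∈ Odisc Φ Q) (he' : e' ∈ Odisc Φ Q) :
    e * e' ∈ Odisc Φ Q :=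
  ⟨Φ.B.mul_mem he.1 he'.1, fun P hP => mul_mem (he.2 P hP) (he'.2 P hP)⟩

theorem one_mem_Odisc : (1 : F) ∈ Odisc Φ Q := ⟨Φ.B.one_mem, fun _ _ => one_mem _⟩

theorem algebraMap_mem_Odisc {a : K} (ha : a ∈ R.A) : algebraMap K F a ∈ Odisc Φ Q :=
  ⟨Φ.const_mem_B a ha, fun P _ => P.algebraMap_mem' a⟩

theorem pow_mem_Odisc {e : F} (he : e ∈ Odisc Φ Q) (n : ℕ) : e ^ n ∈ Odisc Φ Q :=
  ⟨Φ.B.pow_mem he.1 n, fun P hP => pow_mem (he.2 P hP) n⟩

/-! ### the fibre formula on a disc -/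

variable [HasPrincipalDivisors K F]

/-- **(Z)** fibre formula, disc form: for a unit `y` of `B` without pole on the disc of the good
point `Q` and a finite set `S` of places of the disc, `∑_{P ∈ S} ord_P y ≤ ord_Q (red y)`. -/
theorem sum_ord_le_ord_red {y : F} (hy : y ∈ Odisc Φ Q) (hU : IsU Φ y) (hQ : Q ∈ Φ.good)
    (S : Finset (Place K F)) (hS : ∀ P ∈ S, P ∈ disc Φ Q) :
    ∑ P ∈ S, P.ord y ≤ Q.ord (R.red ⟨y, Φ.B_le y hy.1⟩) := by
  classical
  obtain ⟨Dy, hDy, -⟩ := HasPrincipalDivisors.exists_divisor (K := K) y hU.1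
  have hff := ord_red_eq_sum Φ hU hDy hQ
  have hff' : Q.ord (R.red ⟨y, Φ.B_le y hy.1⟩) =
      ∑ P ∈ Dy.support.filter (fun P => Φ.rOf P = some Q), P.ord y := hff
  rw [hff']
  have hnn : ∀ P' ∈ Dy.support.filter (fun P' => Φ.rOf P' = some Q), 0 ≤ P'.ord y :=
    fun P' hP' => ord_nonneg_of_mem P' (hy.2 P' (Finset.mem_filter.mp hP').2)
  have h1 : ∑ P ∈ S, P.ord y = ∑ P ∈ S.filter (fun P => P ∈ Dy.support), P.ord y := by
    rw [Finset.sum_filter]
    refine Finset.sum_congr rfl fun P _ => ?_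
    split_ifs with h
    · rfl
    · rw [Finsupp.mem_support_iff, not_not, hDy P] at h
      exact h
  rw [h1]
  refine Finset.sum_le_sum_of_subset_of_nonneg ?_ fun P hP _ => hnn P hP
  intro P hP
  rw [Finset.mem_filter] at hP ⊢
  exact ⟨hP.2, hS P hP.1⟩

theorem ord_le_ord_red {y : F} (hy : y ∈ Odisc Φ Q) (hU : IsU Φ y) (hQ : Q ∈ Φ.good)
    {P : Place K F} (hP : P ∈ disc Φ Q) : P.ord y ≤ Q.ord (R.red ⟨y, Φ.B_le y hy.1⟩) := by
  have := sum_ord_le_ord_red hy hU hQ {P} (fun P' hP' => by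
    rw [Finset.mem_singleton] at hP'; rw [hP']; exact hP)
  simpa using this

/-- **(I)** the values of `e ∈ Odisc Φ Q` on the disc of a good point `Q` lie in `R.A`. -/
theorem valueAt_mem_A {e : F} (he : e ∈ Odisc Φ Q) (hQ : Q ∈ Φ.good) {P : Place K F}
    (hP : P ∈ disc Φ Q) {a : K} (hea : ValueAt P e a) : a ∈ R.A := by
  by_contra haA
  have ha0 : a ≠ 0 := fun h => haA (h ▸ R.A.zero_mem)
  have hai : a⁻¹ ∈ R.A := (R.A.mem_or_inv_mem a).resolve_left haA
  -- `a⁻¹` is small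
  have hsmall : R.A.valuation a⁻¹ < 1 := by
    have h1 : ¬ R.A.valuation a ≤ 1 := fun h => haA ((R.A.valuation_le_one_iff a).mp h)
    rw [map_inv₀]
    exact inv_lt_one_of_one_lt₀ (not_le.mp h1)
  -- `z = e * a⁻¹` lies in the radical, `f = 1 - z` is a unit of `B` with reduction `1`
  have hz : e * algebraMap K F a⁻¹ ∈ Φ.rad := Φ.rad_mul e he.1 _ (Φ.rad_const _ hsmall)
  set f : F := 1 - e * algebraMap K F a⁻¹ with hf
  have hfU : IsU Φ f := (isU_one Φ).sub_rad hz
  have hfD : f ∈ Odisc Φ Q :=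
    sub_mem_Odisc one_mem_Odisc (mul_mem_Odisc he (algebraMap_mem_Odisc hai))
  have hfred : R.red ⟨f, Φ.B_le f hfD.1⟩ = 1 := by
    have h1 : (⟨f, Φ.B_le f hfD.1⟩ : R.Rw) =
        1 - ⟨e * algebraMap K F a⁻¹, Φ.B_le _ (Φ.rad_sub_B _ hz)⟩ := rfl
    rw [h1, map_sub, map_one, Φ.rad_red _ hz, sub_zero]
  have h1 := ord_le_ord_red hfD hfU hQ hP
  rw [hfred, Place.ord_one] at h1
  -- but `f` vanishes at `P`
  have hfP : ValueAt P f 0 := by
    rw [valueAt_iff_mem_nonunits, map_zero, sub_zero]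
    have h2 : f = -((e - algebraMap K F a) * algebraMap K F a⁻¹) := by
      have hne : algebraMap K F a ≠ 0 := by rw [Ne, map_eq_zero]; exact ha0
      rw [hf, map_inv₀]; field_simp; ring
    rw [h2, ValuationSubring.mem_nonunits_iff, Valuation.map_neg, map_mul]
    have hx := (ValuationSubring.mem_nonunits_iff _).mp ((valueAt_iff_mem_nonunits P e a).mp hea)
    have hy := (P.toValuationSubring.valuation_le_one_iff _).mpr (P.algebraMap_mem' a⁻¹)
    exact (mul_le_of_le_one_right' hy).trans_lt hx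
  rcases (valueAt_zero_iff P f).mp hfP with h | h
  · exact hfU.1 h
  · omega

/-! ### the parameter of a chart point -/

variable (pt : ChartPt Φ Q)

omit [HasPrincipalDivisors K F] in
theorem isU_t : IsU Φ pt.t := by
  have h := pt.hU 0 R.A.zero_mem
  rwa [map_zero, sub_zero] at h

omit [HasPrincipalDivisors K F] in
theorem t_ne_zero : pt.t ≠ 0 := (isU_t pt).1

omit [HasPrincipalDivisors K F] in
theorem inv_t_mem_B : pt.t⁻¹ ∈ Φ.B := (isU_t pt).2.2

/-- the parameter of a chart point has a simple zero at the centre and no other zero on the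
disc. -/
theorem ord_chart :
    pt.P.ord pt.t = 1 ∧ ∀ P' ∈ disc Φ Q, P' ≠ pt.P → P'.ord pt.t = 0 := by
  classical
  have h1 : 1 ≤ pt.P.ord pt.t := by
    rcases (valueAt_zero_iff pt.P pt.t).mp pt.ht0 with h | h
    · exact absurd h (t_ne_zero pt)
    · exact h
  have h2 := ord_le_ord_red pt.ht (isU_t pt) pt.hQ pt.hP
  rw [pt.hred] at h2
  refine ⟨le_antisymm h2 h1, fun P' hP' hne => ?_⟩
  have h3 := sum_ord_le_ord_red pt.ht (isU_t pt) pt.hQ {pt.P, P'} (fun P hP => by
    rw [Finset.mem_insert, Finset.mem_singleton] at hP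
    rcases hP with rfl | rfl
    · exact pt.hP
    · exact hP')
  rw [Finset.sum_pair hne.symm, pt.hred] at h3
  have h4 := ord_nonneg_of_mem P' (pt.ht.2 P' hP')
  omega

/-- **(D0)** an element of `Odisc Φ Q` vanishing at the centre is divisible by the parameter. -/
theorem div_mem_Odisc {e : F} (he : e ∈ Odisc Φ Q) (he0 : ValueAt pt.P e 0) :
    e / pt.t ∈ Odisc Φ Q := by
  rw [div_eq_mul_inv]
  refine ⟨Φ.B.mul_mem he.1 (inv_t_mem_B pt), fun P' hP' => ?_⟩
  by_cases hPP : P' = pt.P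
  · subst hPP
    rcases (valueAt_zero_iff pt.P e).mp he0 with h | h
    · rw [h, zero_mul]; exact zero_mem _
    · by_cases he' : e = 0
      · rw [he', zero_mul]; exact zero_mem _
      apply mem_of_ord_nonneg
      rw [Place.ord_mul _ he' (inv_ne_zero (t_ne_zero pt)), Place.ord_inv, (ord_chart pt).1]
      omega
  · refine mul_mem (he.2 P' hP') (mem_of_ord_nonneg P' ?_)
    rw [Place.ord_inv, (ord_chart pt).2 P' hP' hPP]
    simp

/-! ### Taylor expansion with remainder -/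

/-- the value at the centre (junk `0` if `e` has a pole there). -/
def centreValue (e : F) : K :=
  open Classical in
  if h : e ∈ pt.P.toValuationSubring then valueHom pt.P (Φ.degF pt.P) ⟨e, h⟩ else 0

omit [HasPrincipalDivisors K F] in
theorem valueAt_centreValue {e : F} (he : e ∈ Odisc Φ Q) :
    ValueAt pt.P e (centreValue pt e) := by
  unfold centreValue
  rw [dif_pos (he.2 pt.P pt.hP)]
  exact valueAt_valueHom pt.P (Φ.degF pt.P) _

theorem centreValue_mem_A {e : F} (he : e ∈ Odisc Φ Q) : centreValue pt e ∈ R.A :=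
  valueAt_mem_A he pt.hQ pt.hP (valueAt_centreValue pt he)

/-- the sequence of Taylor remainders `e_0 = e`, `e_{n+1} = (e_n - e_n(P)) / t`. -/
def taylorRem (e : F) : ℕ → F
  | 0 => e
  | n + 1 => (taylorRem e n - algebraMap K F (centreValue pt (taylorRem e n))) / pt.t

/-- the Taylor coefficients `c_n = e_n(P)`. -/
def taylorCoeff (e : F) (n : ℕ) : K := centreValue pt (taylorRem pt e n)

theorem taylorRem_mem_Odisc {e : F} (he : e ∈ Odisc Φ Q) (n : ℕ) :
    taylorRem pt e n ∈ Odisc Φ Q := by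
  induction n with
  | zero => exact he
  | succ n ih =>
    show (taylorRem pt e n - algebraMap K F (centreValue pt (taylorRem pt e n))) / pt.t ∈ Odisc Φ Q
    refine div_mem_Odisc pt (sub_mem_Odisc ih (algebraMap_mem_Odisc (centreValue_mem_A pt ih))) ?_
    have h1 := valueAt_centreValue pt ih
    unfold ValueAt at h1 ⊢
    rwa [map_zero, sub_zero]

theorem taylorCoeff_mem_A {e : F} (he : e ∈ Odisc Φ Q) (n : ℕ) : taylorCoeff pt e n ∈ R.A :=
  centreValue_mem_A pt (taylorRem_mem_Odisc pt he n)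

omit [HasPrincipalDivisors K F] in
/-- **(D)** Taylor expansion with remainder (no hypothesis needed for the identity itself). -/
theorem taylor_eq (e : F) (n : ℕ) :
    e = ∑ i ∈ Finset.range n, algebraMap K F (taylorCoeff pt e i) * pt.t ^ i +
      pt.t ^ n * taylorRem pt e n := by
  induction n with
  | zero => simp [taylorRem]
  | succ n ih =>
    have ht := t_ne_zero pt
    have h1 : taylorRem pt e (n + 1) =
        (taylorRem pt e n - algebraMap K F (taylorCoeff pt e n)) / pt.t := rfl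
    rw [Finset.sum_range_succ, h1]
    conv_lhs => rw [ih]
    field_simp
    ring

/-- **(D)**, existential form. -/
theorem exists_taylor {e : F} (he : e ∈ Odisc Φ Q) (n : ℕ) :
    ∃ (c : ℕ → K) (eₙ : F), (∀ i, c i ∈ R.A) ∧ eₙ ∈ Odisc Φ Q ∧
      e = ∑ i ∈ Finset.range n, algebraMap K F (c i) * pt.t ^ i + pt.t ^ n * eₙ :=
  ⟨taylorCoeff pt e, taylorRem pt e n, taylorCoeff_mem_A pt he, taylorRem_mem_Odisc pt he n,
    taylor_eq pt e n⟩

/-- **(D')** the Taylor bound on the whole disc: if `t(P') = τ` and `e(P') = φ` then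
`|φ - ∑_{i<n} c_i τ^i| ≤ |τ|^n`, with coefficients `c_i ∈ R.A` independent of `n` and `P'`. -/
theorem taylor_bound {e : F} (he : e ∈ Odisc Φ Q) (n : ℕ) {P' : Place K F} (hP' : P' ∈ disc Φ Q)
    {τ φ : K} (hτ : ValueAt P' pt.t τ) (hφ : ValueAt P' e φ) :
    R.A.valuation (φ - ∑ i ∈ Finset.range n, taylorCoeff pt e i * τ ^ i) ≤ R.A.valuation τ ^ n := by
  have hdeg := Φ.degF P'
  have hen := taylorRem_mem_Odisc pt he n
  set a : K := valueHom P' hdeg ⟨taylorRem pt e n, hen.2 P' hP'⟩ with ha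
  have haA : a ∈ R.A := valueAt_mem_A hen pt.hQ hP' (valueAt_valueHom P' hdeg _)
  -- evaluate the Taylor identity at `P'`
  have htm := pt.ht.2 P' hP'
  have hem := he.2 P' hP'
  have hτ' : valueHom P' hdeg ⟨pt.t, htm⟩ = τ := (valueAt_iff_valueHom P' hdeg htm τ).mp hτ
  have hφ' : valueHom P' hdeg ⟨e, hem⟩ = φ := (valueAt_iff_valueHom P' hdeg hem φ).mp hφ
  have key : (⟨e, hem⟩ : P'.toValuationSubring) =
      ∑ i ∈ Finset.range n, algebraMap K P'.toValuationSubring (taylorCoeff pt e i) *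
        (⟨pt.t, htm⟩ : P'.toValuationSubring) ^ i +
      (⟨pt.t, htm⟩ : P'.toValuationSubring) ^ n * ⟨taylorRem pt e n, hen.2 P' hP'⟩ := by
    apply Subtype.ext
    push_cast
    exact taylor_eq pt e n
  have h1 := congrArg (valueHom P' hdeg) key
  rw [hφ', map_add, map_sum, map_mul, map_pow, hτ', ← ha] at h1
  simp only [map_mul, map_pow, valueHom_algebraMap, hτ'] at h1
  rw [h1, add_sub_cancel_left, map_mul, map_pow]
  calc R.A.valuation τ ^ n * R.A.valuation a ≤ R.A.valuation τ ^ n * 1 := by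
        gcongr
        exact (R.A.valuation_le_one_iff a).mpr haA
    _ = R.A.valuation τ ^ n := mul_one _

/-- **(F3)** of `GS/Frame/Vocab.DiscFacts`, local form: Taylor expansion with remainder, evaluated
on the disc of a chart point. -/
theorem taylor {e : F} (he : e ∈ Odisc Φ Q) (m : ℕ) :
    ∃ γ : ℕ → K, (∀ i, γ i ∈ R.A) ∧ ∀ P ∈ disc Φ Q, ∀ a b : K, ValueAt P pt.t a → ValueAt P e b →
      R.A.valuation (b - ∑ i ∈ Finset.range m, γ i * a ^ i) ≤ R.A.valuation a ^ m :=
  ⟨taylorCoeff pt e, taylorCoeff_mem_A pt he, fun _ hP _ _ ha hb => taylor_bound pt he m hP ha hb⟩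

/-- **(F1)** of `GS/Frame/Vocab.DiscFacts`, local form: values of disc-regular functions of the
global unit ball exist and are integral. -/
theorem exists_value {e : F} (he : e ∈ Odisc Φ Q) (hQ : Q ∈ Φ.good) {P : Place K F}
    (hP : P ∈ disc Φ Q) : ∃ a ∈ R.A, ValueAt P e a :=
  ⟨valueHom P (Φ.degF P) ⟨e, he.2 P hP⟩,
    valueAt_mem_A he hQ hP (valueAt_valueHom P (Φ.degF P) _), valueAt_valueHom P (Φ.degF P) _⟩

end Fermat.Agent.GS.Frame.Local.Taylor
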